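import Fermat.Agent.PolynomialParity.Roots
import Mathlib.FieldTheory.Separable
import Mathlib.LinearAlgebra.Semisimple
import Mathlib.RingTheory.AdjoinRoot

/-!
# The Frobenius on the roots of a polynomial modulo `p`

For a monic polynomial of degree `n`, squarefree modulo `p` with `r` irreducible factors, the
Frobenius permutes the `n` roots in characteristic `p` with sign `(-1) ^ (n + r)`. For odd `p` this
is the Legendre symbol of the discriminant (Pellet), for `p = 2` it decides the class of the
discriminant modulo `8` (Stickelberger, Swan).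
-/

set_option autoImplicit false
set_option linter.style.haveILetI false

noncomputable section

namespace FA.PolynomialParity

open Polynomial Matrix Finset Module FA.StickelbergerTwo UniqueFactorizationMonoid

local notation "Ob" => integralClosure ℤ (AlgebraicClosure ℚ)

/-- The maximal ideals of `F[X] / (g)` are given by the irreducible factors. -/
theorem card_maximalSpectrum {F : Type*} [Field F] [DecidableEq F] {g : F[X]} (hg : g ≠ 0) :
    Nat.card (MaximalSpectrum (AdjoinRoot g)) = (normalizedFactors g).toFinset.card := by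
  classical
  set π := AdjoinRoot.mk g
  have hs : Function.Surjective π := AdjoinRoot.mk_surjective
  have hbot : (⊥ : Ideal (AdjoinRoot g)).comap π = Ideal.span {g} := by
    ext a
    rw [Ideal.mem_comap, Ideal.mem_bot, AdjoinRoot.mk_eq_zero, Ideal.mem_span_singleton]
  have hker : ∀ q ∈ normalizedFactors g, ((Ideal.span {q}).map π).comap π =
      Ideal.span {q} :=
    fun q hq => by
    rw [Ideal.comap_map_of_surjective π hs, sup_eq_left, hbot,
      Ideal.span_singleton_le_span_singleton]
    exact dvd_of_mem_normalizedFactors hq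
  rw [← Fintype.card_coe, ← Nat.card_eq_fintype_card]
  symm
  refine Nat.card_eq_of_bijective (fun q : (normalizedFactors g).toFinset =>
    (⟨(Ideal.span {q.1}).map π, ?_⟩ : MaximalSpectrum (AdjoinRoot g)))
    ⟨fun q q' h => ?_, fun I => ?_⟩
  · have hq := Multiset.mem_toFinset.1 q.2
    have hmax : (Ideal.span {q.1}).IsMaximal :=
      PrincipalIdealRing.isMaximal_of_irreducible (irreducible_of_normalized_factor _ hq)
    rcases Ideal.map_eq_top_or_isMaximal_of_surjective π hs hmax with h | h
    · exact absurd (by rw [← hker _ hq, h, Ideal.comap_top]) hmax.ne_top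
    · exact h
  · have hq := Multiset.mem_toFinset.1 q.2
    have hq' := Multiset.mem_toFinset.1 q'.2
    have h1 : Ideal.span {q.1} = Ideal.span {q'.1} := by
      rw [← hker _ hq, ← hker _ hq']
      exact congrArg (fun I : MaximalSpectrum _ => I.asIdeal.comap π) h
    refine Subtype.ext ?_
    rw [← normalize_normalized_factor _ hq, ← normalize_normalized_factor _ hq']
    exact normalize_eq_normalize (Ideal.span_singleton_le_span_singleton.1 h1.ge)
      (Ideal.span_singleton_le_span_singleton.1 h1.le)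
  · haveI := I.isMaximal
    obtain ⟨q₀, hq₀⟩ : ∃ q₀, I.asIdeal.comap π = Ideal.span {q₀} :=
      ⟨_, (Ideal.span_singleton_generator _).symm⟩
    have hmax : (I.asIdeal.comap π).IsMaximal := Ideal.comap_isMaximal_of_surjective π hs
    have hdvd : q₀ ∣ g := by
      rw [← Ideal.mem_span_singleton, ← hq₀, Ideal.mem_comap,
        AdjoinRoot.mk_self]
      exact zero_mem _
    have hirr : Irreducible q₀ := by
      have hp : (Ideal.span {q₀}).IsPrime := hq₀ ▸ hmax.isPrime
      exact ((Ideal.span_singleton_prime (ne_zero_of_dvd_ne_zero hg hdvd)).1 hp).irreducible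
    obtain ⟨q, hq, hass⟩ := exists_mem_normalizedFactors_of_dvd hg hirr hdvd
    refine ⟨⟨q, Multiset.mem_toFinset.2 hq⟩, MaximalSpectrum.ext ?_⟩
    change (Ideal.span {q}).map π = I.asIdeal
    rw [← Ideal.span_singleton_eq_span_singleton.2 hass, ← hq₀,
      Ideal.map_comap_of_surjective π hs]

variable {p : ℕ} [hp : Fact p.Prime]

/-- **The sign of Frobenius on the roots.** -/
theorem exists_perm {k : Type*} [Field k] [Algebra (ZMod p) k] {n : ℕ} {g : (ZMod p)[X]}
    (hg : g.Monic) (hsep : g.Separable) (x : Fin n → k)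
    (hx : g.map (algebraMap (ZMod p) k) = ∏ i, (X - C (x i))) :
    ∃ π : Equiv.Perm (Fin n),
      Equiv.Perm.sign π = (-1) ^ (n + (normalizedFactors g).card) ∧ ∀ j, x (π j) = x j ^ p := by
  classical
  have hn : g.natDegree = n := by
    rw [← hg.natDegree_map (algebraMap (ZMod p) k), hx,
      natDegree_prod_of_monic _ _ fun i _ => monic_X_sub_C (x i)]
    simp
  haveI : IsReduced (AdjoinRoot g) :=
    (Ideal.isRadical_iff_quotient_reduced _).1
      (isRadical_iff_span_singleton.1 hsep.squarefree.isRadical)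
  have hroot : ∀ j, g.eval₂ (Algebra.ofId (ZMod p) k) (x j) = 0 := fun j => by
    change g.eval₂ (algebraMap (ZMod p) k) (x j) = 0
    rw [← eval_map, hx, eval_prod]
    exact prod_eq_zero (mem_univ j) (by simp)
  let ρ : Fin n → (AdjoinRoot g →ₐ[ZMod p] k) := fun j =>
    AdjoinRoot.liftAlgHom g (Algebra.ofId (ZMod p) k) (x j) (hroot j)
  have hρx : ∀ j, ρ j (AdjoinRoot.root g) = x j := fun j => AdjoinRoot.liftAlgHom_root _ _ _ _
  have hinj : Function.Injective x := by
    have h := hsep.map (f := algebraMap (ZMod p) k)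
    rwa [hx, separable_prod_X_sub_C_iff] at h
  have hρ : Function.Injective ρ := fun i j h => hinj (by rw [← hρx, ← hρx, h])
  let b := (AdjoinRoot.powerBasis' hg).basis.reindex
    (finCongr (show (AdjoinRoot.powerBasis' hg).dim = n from hn))
  obtain ⟨π, hπ, hfr⟩ := exists_frobenius_perm b ρ hρ
  refine ⟨π, ?_, fun j => by rw [← hρx, ← hρx, hfr]⟩
  rw [hπ, card_maximalSpectrum hg.ne_zero, Fintype.card_fin,
    Multiset.toFinset_card_of_nodup
      ((squarefree_iff_nodup_normalizedFactors hg.ne_zero).1 hsep.squarefree)]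

variable (p) in
/-- **Squarefree modulo `p` iff `p` does not divide the discriminant.** -/
theorem separable_map_iff {f : ℤ[X]} (hm : f.Monic) :
    (f.map (Int.castRingHom (ZMod p))).Separable ↔ ¬ (p : ℤ) ∣ f.discr := by
  set k := AlgebraicClosure (ZMod p)
  have hmk : (f.map (Int.castRingHom (ZMod p))).map (algebraMap (ZMod p) k) =
      f.map (Int.castRingHom k) := by
    rw [Polynomial.map_map, RingHom.ext_int ((algebraMap (ZMod p) k).comp _) (Int.castRingHom k)]
  obtain ⟨x, hx⟩ := exists_fin_roots (IsAlgClosed.splits (f.map (Int.castRingHom k))) (hm.map _)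
    (hm.natDegree_map (Int.castRingHom k))
  rw [← separable_map (algebraMap (ZMod p) k), hmk, hx, separable_prod_X_sub_C_iff,
    ← det_vandermonde_ne_zero_iff, ← pow_ne_zero_iff (n := 2) two_ne_zero, ← intCast_discr hm hx,
    ← ZMod.intCast_zmod_eq_zero_iff_dvd, ← map_intCast (algebraMap (ZMod p) k), Ne, map_eq_zero]

/-- **Pellet's theorem.** -/
theorem legendreSym_discr (hp2 : p ≠ 2) {f : ℤ[X]} (hm : f.Monic)
    (hd : ¬ (p : ℤ) ∣ f.discr) :
    legendreSym p f.discr = (-1) ^ (f.natDegree +
      (normalizedFactors (f.map (Int.castRingHom (ZMod p)))).card) := by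
  classical
  set k := AlgebraicClosure (ZMod p)
  haveI : CharP k p := charP_of_injective_algebraMap (algebraMap (ZMod p) k).injective p
  set g := f.map (Int.castRingHom (ZMod p))
  have hmk : g.map (algebraMap (ZMod p) k) = f.map (Int.castRingHom k) := by
    rw [Polynomial.map_map, RingHom.ext_int ((algebraMap (ZMod p) k).comp _) (Int.castRingHom k)]
  obtain ⟨x, hx⟩ := exists_fin_roots (IsAlgClosed.splits (f.map (Int.castRingHom k))) (hm.map _)
    (hm.natDegree_map (Int.castRingHom k))
  obtain ⟨π, hπ, hfr⟩ := exists_perm (hm.map _) ((separable_map_iff p hm).2 hd) x (hmk.trans hx)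
  have hD := intCast_discr hm hx
  set Δ := (vandermonde x).det with hΔ
  have hΔ0 : Δ ≠ 0 := fun h => by
    rw [h, zero_pow two_ne_zero, ← map_intCast (algebraMap (ZMod p) k), map_eq_zero,
      ZMod.intCast_zmod_eq_zero_iff_dvd] at hD
    exact hd hD
  set e := f.natDegree + (normalizedFactors g).card
  have hpow : Δ ^ (p - 1) = (-1) ^ e := by
    refine mul_right_cancel₀ hΔ0 ?_
    rw [← pow_succ, Nat.sub_add_cancel hp.out.one_lt.le, hΔ, ← det_rootMatrix, ← frobenius_def,
      RingHom.map_det]
    have h : (frobenius k p).mapMatrix (rootMatrix x) = (rootMatrix x).submatrix id π := by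
      rw [RingHom.mapMatrix_apply, map_rootMatrix, rootMatrix_comp]
      simp only [frobenius_def, hfr]
    rw [h, det_permute', hπ]
    push_cast
    rfl
  have hcast : ((legendreSym p f.discr : ℤ) : k) = (((-1) ^ e : ℤ) : k) := by
    rw [← map_intCast (algebraMap (ZMod p) k), legendreSym.eq_pow, map_pow, map_intCast, hD,
      ← pow_mul, show 2 * (p / 2) = p - 1 by
        rcases hp.out.eq_two_or_odd with h | h
        · exact absurd h hp2
        · omega, hpow]
    push_cast
    rfl
  have hne : (f.discr : ZMod p) ≠ 0 := fun h => hd ((ZMod.intCast_zmod_eq_zero_iff_dvd _ _).1 h)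
  haveI : Fact (2 < p) := ⟨lt_of_le_of_ne hp.out.two_le (Ne.symm hp2)⟩
  have h11 : (-1 : k) ≠ 1 := Ring.neg_one_ne_one_of_char_ne_two (by
    rw [ringChar.eq k p]; exact hp2)
  rcases legendreSym.eq_one_or_neg_one p hne with h | h <;>
    rcases neg_one_pow_eq_or ℤ e with h' | h' <;> rw [h, h'] at hcast ⊢ <;>
    push_cast at hcast
  · exact absurd hcast.symm h11
  · exact absurd hcast h11

theorem exists_maximal_mem (q : ℕ) [hq : Fact q.Prime] :
    ∃ Mx : Ideal Ob, Mx.IsMaximal ∧ (q : Ob) ∈ Mx := by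
  have hne : Ideal.span {(q : Ob)} ≠ ⊤ := by
    rw [Ne, Ideal.span_singleton_eq_top]
    intro hu
    obtain ⟨y, hy⟩ := isUnit_iff_dvd_one.1 hu
    have hy' : (1 : AlgebraicClosure ℚ) = (q : AlgebraicClosure ℚ) * (y : AlgebraicClosure ℚ) := by
      have h := congrArg Subtype.val hy
      push_cast at h
      exact h
    obtain ⟨z, hz⟩ := exists_int_of_fixed y fun τ => by
      have h := congrArg τ hy'
      rw [map_one, map_mul, map_natCast, hy'] at h
      exact (mul_left_cancel₀ (Nat.cast_ne_zero.2 hq.out.ne_zero) h).symm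
    rw [← hz] at hy
    have h2 := congrArg Subtype.val hy
    push_cast at h2
    have h3 : (1 : ℤ) = (q : ℤ) * z := by exact_mod_cast h2
    have h4 : (q : ℤ) ∣ 1 := ⟨z, h3⟩
    exact hq.out.ne_one (Nat.dvd_one.1 (by exact_mod_cast h4))
  obtain ⟨Mx, hMx, hle⟩ := Ideal.exists_le_maximal _ hne
  exact ⟨Mx, hMx, hle (Ideal.subset_span rfl)⟩

/-- **Stickelberger's parity at `2` for polynomials**, the theorem of Swan. -/
theorem discr_mod_eight {f : ℤ[X]} (hm : f.Monic) (hodd : ¬ (2 : ℤ) ∣ f.discr) :
    f.discr % 8 = 1 ↔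
      Even (f.natDegree + (normalizedFactors (f.map (Int.castRingHom (ZMod 2)))).card) := by
  classical
  obtain ⟨Mx, hMx, hmem⟩ := exists_maximal_mem 2
  letI : Field (Ob ⧸ Mx) := Ideal.Quotient.field Mx
  haveI : CharP (Ob ⧸ Mx) 2 := (CharP.charP_iff_prime_eq_zero Nat.prime_two).2 (by
    rw [← map_natCast (Ideal.Quotient.mk Mx), Ideal.Quotient.eq_zero_iff_mem]
    exact hmem)
  letI : Algebra (ZMod 2) (Ob ⧸ Mx) := ZMod.algebra _ 2
  set π₀ := Ideal.Quotient.mk Mx
  obtain ⟨θ, hθ⟩ := exists_roots hm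
  set x : Fin f.natDegree → Ob ⧸ Mx := fun i => π₀ (θ i)
  have hx : (f.map (Int.castRingHom (ZMod 2))).map (algebraMap (ZMod 2) (Ob ⧸ Mx)) =
      ∏ i, (X - C (x i)) := by
    rw [Polynomial.map_map, RingHom.ext_int ((algebraMap (ZMod 2) (Ob ⧸ Mx)).comp _)
      (π₀.comp (Int.castRingHom Ob)), ← Polynomial.map_map, hθ, Polynomial.map_prod]
    simp [x]
  have hsep := (separable_map_iff 2 hm).2 hodd
  have hinj : Function.Injective x := by
    have h := hsep.map (f := algebraMap (ZMod 2) (Ob ⧸ Mx))
    rwa [hx, separable_prod_X_sub_C_iff] at h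
  obtain ⟨T, U, hT, hU, hD⟩ :=
    exists_parts hm hθ fun a c e => hinj (congrArg π₀ e)
  obtain ⟨π, hπ, hsq⟩ := exists_perm (hm.map _) hsep x hx
  set M := rootMatrix x
  have hTodd : ¬ (2 : ℤ) ∣ T := fun ⟨t, ht⟩ => hodd ⟨2 * t ^ 2 - 2 * U, by rw [hD, ht]; ring⟩
  have hT2 : ((T : ℤ) : Ob ⧸ Mx) = halfDet 1 M + halfDet (-1) M := by
    rw [← map_intCast π₀, hT, map_add, map_halfDet, map_halfDet, map_rootMatrix]
  have hU2 : ((U : ℤ) : Ob ⧸ Mx) = halfDet 1 M * halfDet (-1) M := by
    rw [← map_intCast π₀, hU, map_mul, map_halfDet, map_halfDet, map_rootMatrix]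
  have hT1 : ((T : ℤ) : Ob ⧸ Mx) = 1 := by
    obtain ⟨t, rfl⟩ : ∃ t, T = 2 * t + 1 := ⟨T / 2, by omega⟩
    push_cast
    rw [CharTwo.two_eq_zero, zero_mul, zero_add]
  have hP : halfDet 1 M ^ 2 = halfDet (Equiv.Perm.sign π) M := by
    rw [← one_mul (Equiv.Perm.sign π), ← halfDet_permute, ← frobenius_def (R := Ob ⧸ Mx) 2,
      map_halfDet, map_rootMatrix, rootMatrix_comp]
    simp only [frobenius_def, hsq]
  set P := halfDet 1 M
  set N := halfDet (-1) M
  have hPN : P + N = 1 := hT2.symm.trans hT1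
  have key : (2 : ℤ) ∣ U ↔ Equiv.Perm.sign π = 1 := by
    rw [show (2 : ℤ) = ((2 : ℕ) : ℤ) from rfl, ← CharP.intCast_eq_zero_iff (Ob ⧸ Mx) 2 U, hU2]
    constructor
    · intro h
      by_contra hne'
      rw [(Int.units_eq_one_or _).resolve_left hne'] at hP
      have h1 : (1 : Ob ⧸ Mx) = 0 := by
        linear_combination -hPN - hP - h + P * hPN + P * (CharTwo.two_eq_zero (R := Ob ⧸ Mx))
      exact one_ne_zero h1
    · intro h
      rw [h] at hP
      linear_combination P * hPN - hP
  have hpar : Equiv.Perm.sign π = 1 ↔ Even (f.natDegree +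
      (normalizedFactors (f.map (Int.castRingHom (ZMod 2)))).card) := by
    rw [hπ]
    exact neg_one_pow_eq_one_iff_even (by decide)
  rw [← hpar, ← key]
  obtain ⟨t, ht⟩ : ∃ t, T = 2 * t + 1 := ⟨T / 2, by omega⟩
  obtain ⟨s, hs⟩ := Int.even_mul_succ_self t
  have hD8 : f.discr = 8 * s + 1 - 4 * U := by
    rw [hD, ht]
    linear_combination (4 : ℤ) * hs
  omega

end FA.PolynomialParity

end
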