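import Fermat.Agent.StickelbergerTwo.NumberField
import Mathlib.LinearAlgebra.Lagrange
import Mathlib.LinearAlgebra.Vandermonde
import Mathlib.RingTheory.Polynomial.Resultant.Basic

/-!
# The discriminant of a polynomial as a square

For a monic integer polynomial with roots `θ`, the discriminant is the square of the Vandermonde
determinant. With `P` and `N` its sums over the even and the odd permutations, `T = P + N` and
`U = P N` are rational integers and the discriminant is `T² - 4 U`.
-/

set_option autoImplicit false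
set_option linter.style.haveILetI false

noncomputable section

namespace FA.PolynomialParity

open Polynomial Matrix Finset FA.StickelbergerTwo

local notation "Qb" => AlgebraicClosure ℚ
local notation "Ob" => integralClosure ℤ (AlgebraicClosure ℚ)

theorem sum_card_Ioi (n : ℕ) : ∑ i : Fin n, (Finset.Ioi i).card = n * (n - 1) / 2 := by
  simp only [Fin.card_Ioi]
  rw [Fin.sum_univ_eq_sum_range (fun i => n - 1 - i), Finset.sum_range_reflect (fun i => i) n,
    Finset.sum_range_id]

variable {R : Type*} [CommRing R]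

/-- **The square of the Vandermonde determinant.** -/
theorem det_vandermonde_sq {n : ℕ} (θ : Fin n → R) :
    (vandermonde θ).det ^ 2 = (-1) ^ (n * (n - 1) / 2) *
      ∏ i, (derivative (∏ j, (X - C (θ j)))).eval (θ i) := by
  classical
  have h : ∀ i, (derivative (∏ j, (X - C (θ j)))).eval (θ i) = ∏ j ∈ {i}ᶜ, (θ i - θ j) :=
    fun i => by
    rw [← Lagrange.nodal_eq, Lagrange.eval_nodal_derivative_eval_node_eq (mem_univ i),
      Lagrange.eval_nodal, compl_singleton]
  simp only [h]
  rw [← prod_prod_Ioi_mul_eq_prod_prod_off_diag (fun a c => θ c - θ a), det_vandermonde,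
    ← sum_card_Ioi, ← prod_pow_eq_pow_sum, ← prod_mul_distrib, ← prod_pow]
  refine prod_congr rfl fun i _ => ?_
  rw [← prod_pow, ← prod_const, ← prod_mul_distrib]
  exact prod_congr rfl fun j _ => by ring

variable [Nontrivial R]

theorem natDegree_eq_of_roots {n : ℕ} {f : ℤ[X]} {θ : Fin n → R} (hm : f.Monic)
    (h : f.map (Int.castRingHom R) = ∏ i, (X - C (θ i))) : f.natDegree = n := by
  rw [← hm.natDegree_map (Int.castRingHom R), h,
    natDegree_prod_of_monic _ _ fun i _ => monic_X_sub_C (θ i)]
  simp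

/-- **The discriminant is the square of the Vandermonde determinant.** -/
theorem intCast_discr {n : ℕ} {f : ℤ[X]} {θ : Fin n → R} (hm : f.Monic)
    (h : f.map (Int.castRingHom R) = ∏ i, (X - C (θ i))) :
    (f.discr : R) = (vandermonde θ).det ^ 2 := by
  have hn := natDegree_eq_of_roots hm h
  rcases Nat.eq_zero_or_pos n with hn0 | hn0
  · subst hn0
    rw [hm.natDegree_eq_zero.1 hn, show (1 : ℤ[X]) = C 1 from C_1.symm, discr_C]
    simp
  set s : R := (-1) ^ (n * (n - 1) / 2) with hs
  have hss : s * s = 1 := by rw [hs, ← mul_pow, neg_one_mul, neg_neg, one_pow]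
  have hres : ((f.resultant f.derivative n (n - 1) : ℤ) : R) = s * f.discr := by
    have h1 := resultant_deriv (f := f) (natDegree_pos_iff_degree_pos.1 (hn ▸ hn0))
    rw [hn, hm.leadingCoeff, mul_one] at h1
    rw [h1, hs]
    push_cast
    rfl
  rw [← eq_intCast (Int.castRingHom R) (f.resultant _ _ _), ← resultant_map_map,
    ← derivative_map, h] at hres
  set g := derivative (∏ j, (X - C (θ j))) with hg
  have hgd : g.natDegree ≤ n - 1 := by
    refine (natDegree_derivative_le _).trans ?_
    rw [← h, hm.natDegree_map, hn]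
  have hprod : resultant (∏ j, (X - C (θ j))) g n (n - 1) = ∏ i, g.eval (θ i) := by
    have h2 := resultant_prod_left univ (fun j => X - C (θ j)) g (n - 1) (by simp) hgd
    rw [natDegree_prod_of_monic _ _ fun i _ => monic_X_sub_C (θ i)] at h2
    simp only [natDegree_X_sub_C, sum_const, card_univ, Fintype.card_fin, smul_eq_mul,
      mul_one] at h2
    rw [h2]
    exact prod_congr rfl fun i _ => resultant_X_sub_C_left _ _ _ hgd
  rw [det_vandermonde_sq, ← hg, ← hprod, hres, ← mul_assoc, ← hs, hss, one_mul]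

/-- The roots of a split monic polynomial as a family. -/
theorem exists_fin_roots {K : Type*} [Field K] {F : K[X]} (hF : F.Splits) (hm : F.Monic) {n : ℕ}
    (hn : F.natDegree = n) : ∃ x : Fin n → K, F = ∏ i, (X - C (x i)) := by
  have hlen : F.roots.toList.length = n := by
    rw [Multiset.length_toList, ← hF.natDegree_eq_card_roots, hn]
  refine ⟨fun i => F.roots.toList[(Fin.cast hlen.symm i : ℕ)], ?_⟩
  conv_lhs => rw [hF.eq_prod_roots_of_monic hm, ← Multiset.coe_toList F.roots]
  rw [Multiset.map_coe, Multiset.prod_coe,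
    ← Fin.prod_univ_fun_getElem F.roots.toList (fun a => X - C a),
    ← Equiv.prod_comp (finCongr hlen.symm)]
  rfl

/-- The roots among the algebraic integers. -/
theorem exists_roots {f : ℤ[X]} (hm : f.Monic) : ∃ θ : Fin f.natDegree → Ob,
    f.map (Int.castRingHom Ob) = ∏ i, (X - C (θ i)) := by
  set F := f.map (Int.castRingHom Qb)
  obtain ⟨x, hx⟩ := exists_fin_roots (IsAlgClosed.splits F) (hm.map _)
    (hm.natDegree_map (Int.castRingHom Qb))
  have hint : ∀ i, IsIntegral ℤ (x i) := fun i => ⟨f, hm, by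
    rw [RingHom.ext_int (algebraMap ℤ Qb) (Int.castRingHom Qb), ← eval_map]
    change F.eval (x i) = 0
    rw [hx, eval_prod]
    exact prod_eq_zero (mem_univ i) (by simp)⟩
  refine ⟨fun i => ⟨x i, hint i⟩, map_injective (integralClosure ℤ Qb).val.toRingHom
    Subtype.coe_injective ?_⟩
  rw [Polynomial.map_map, RingHom.ext_int ((integralClosure ℤ Qb).val.toRingHom.comp _)
    (Int.castRingHom Qb)]
  change F = _
  rw [hx, Polynomial.map_prod]
  simp

/-- The Vandermonde matrix, with the roots as columns. -/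
def rootMatrix {S : Type*} [CommRing S] {n : ℕ} (θ : Fin n → S) : Matrix (Fin n) (Fin n) S :=
  (vandermonde θ)ᵀ

theorem det_rootMatrix {S : Type*} [CommRing S] {n : ℕ} (θ : Fin n → S) :
    (rootMatrix θ).det = (vandermonde θ).det := det_transpose _

theorem map_rootMatrix {S S' : Type*} [CommRing S] [CommRing S'] (φ : S →+* S') {n : ℕ}
    (θ : Fin n → S) : (rootMatrix θ).map φ = rootMatrix (fun i => φ (θ i)) := by
  ext i j
  simp [rootMatrix]

theorem rootMatrix_comp {S : Type*} [CommRing S] {n : ℕ} (θ : Fin n → S)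
    (π : Equiv.Perm (Fin n)) : (rootMatrix θ).submatrix id π = rootMatrix (fun i => θ (π i)) :=
  rfl

/-- **`D = T² - 4 U`.** -/
theorem exists_parts {n : ℕ} {f : ℤ[X]} {θ : Fin n → Ob} (hm : f.Monic)
    (h : f.map (Int.castRingHom Ob) = ∏ i, (X - C (θ i))) (hθ : Function.Injective θ) :
    ∃ T U : ℤ, (T : Ob) = halfDet 1 (rootMatrix θ) + halfDet (-1) (rootMatrix θ) ∧
      (U : Ob) = halfDet 1 (rootMatrix θ) * halfDet (-1) (rootMatrix θ) ∧
      f.discr = T ^ 2 - 4 * U := by
  classical
  set M := rootMatrix θ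
  set ι := (integralClosure ℤ Qb).val.toRingHom
  have hroot : ∀ i, aeval (θ i) f = 0 := fun i => by
    rw [aeval_def, RingHom.ext_int (algebraMap ℤ Ob) (Int.castRingHom Ob), ← eval_map, h,
      eval_prod]
    exact prod_eq_zero (mem_univ i) (by simp)
  have hperm : ∀ τ : Qb ≃ₐ[ℚ] Qb, ∀ i, ∃ j, τ (θ i : Qb) = θ j := fun τ i => by
    have h1 : aeval (τ (θ i : Qb)) f = 0 := by
      have h2 : aeval (θ i : Qb) f = 0 := by
        rw [show (θ i : Qb) = (integralClosure ℤ Qb).val (θ i) from rfl, aeval_algHom_apply,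
          hroot, map_zero]
      rw [show τ (θ i : Qb) = τ.toAlgHom.restrictScalars ℤ (θ i : Qb) from rfl,
        aeval_algHom_apply, h2, map_zero]
    have h3 : f.map (Int.castRingHom Qb) = ∏ j, (X - C (θ j : Qb)) := by
      rw [← RingHom.ext_int (ι.comp (Int.castRingHom Ob)) (Int.castRingHom Qb),
        ← Polynomial.map_map, h, Polynomial.map_prod]
      simp [ι]
    rw [aeval_def, RingHom.ext_int (algebraMap ℤ Qb) (Int.castRingHom Qb), ← eval_map, h3,
      eval_prod, prod_eq_zero_iff] at h1
    obtain ⟨j, -, hj⟩ := h1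
    exact ⟨j, by rwa [eval_sub, eval_X, eval_C, sub_eq_zero] at hj⟩
  have hgal : ∀ τ : Qb ≃ₐ[ℚ] Qb, ∃ π : Equiv.Perm (Fin n), ∀ s,
      τ ((halfDet s M : Ob) : Qb) = ((halfDet (s * Equiv.Perm.sign π) M : Ob) : Qb) := fun τ => by
    choose g hg using hperm τ
    have hinj : Function.Injective g := fun a c e =>
      hθ (Subtype.ext (τ.injective (by rw [hg, hg, e])))
    refine ⟨Equiv.ofBijective g (Finite.injective_iff_bijective.1 hinj), fun s => ?_⟩
    rw [← halfDet_permute]
    change τ.toRingEquiv.toRingHom (ι (halfDet s M)) = ι (halfDet s (M.submatrix id _))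
    rw [map_halfDet, map_halfDet, map_halfDet]
    congr 1
    ext i j
    change τ ((θ j ^ (i : ℕ) : Ob) : Qb) = ((θ (g j) ^ (i : ℕ) : Ob) : Qb)
    push_cast
    rw [map_pow, hg]
  obtain ⟨T, hT⟩ := exists_int_of_fixed (halfDet 1 M + halfDet (-1) M) fun τ => by
    obtain ⟨π, hπ⟩ := hgal τ
    push_cast
    rw [map_add, hπ, hπ]
    rcases Int.units_eq_one_or (Equiv.Perm.sign π) with e | e <;> rw [e] <;>
      simp [add_comm]
  obtain ⟨U, hU⟩ := exists_int_of_fixed (halfDet 1 M * halfDet (-1) M) fun τ => by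
    obtain ⟨π, hπ⟩ := hgal τ
    push_cast
    rw [map_mul, hπ, hπ]
    rcases Int.units_eq_one_or (Equiv.Perm.sign π) with e | e <;> rw [e] <;>
      simp [mul_comm]
  refine ⟨T, U, hT, hU, Int.cast_injective (α := Ob) ?_⟩
  rw [intCast_discr hm h, ← det_rootMatrix, det_eq_sub]
  push_cast
  rw [hT, hU]
  ring

/-- **Stickelberger's congruence for polynomials.** -/
theorem discr_mod_four {f : ℤ[X]} (hm : f.Monic) : f.discr % 4 = 0 ∨ f.discr % 4 = 1 := by
  classical
  obtain ⟨θ, h⟩ := exists_roots hm
  by_cases hθ : Function.Injective θ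
  · obtain ⟨T, U, -, -, hD⟩ := exists_parts hm h hθ
    rcases Int.even_or_odd T with ⟨t, rfl⟩ | ⟨t, rfl⟩ <;> ring_nf at hD <;> omega
  · have hd := intCast_discr hm h
    rw [det_vandermonde_eq_zero_iff.2 ?_, zero_pow two_ne_zero, Int.cast_eq_zero] at hd
    · exact Or.inl (by rw [hd]; rfl)
    · obtain ⟨a, c, he, hne⟩ := Function.not_injective_iff.1 hθ
      exact ⟨a, c, he, hne⟩

end FA.PolynomialParity

end
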