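import Fermat.Agent.PolynomialParity.Frobenius
import Mathlib.Algebra.CharP.Two

/-!
# Trinomials of degree divisible by `8`, and `X ^ 4 + 1`

For `8 ∣ n` and odd `k < n` the discriminant of `X ^ n + X ^ k + 1` is `1` modulo `8`, since the
derivative is `k X ^ (k - 1)` there; so the trinomial has an even number of factors over `ℤ/2`.
For even `k` it is a square.
-/

set_option autoImplicit false
set_option linter.style.haveILetI false

noncomputable section

namespace FA.PolynomialParity

open Polynomial UniqueFactorizationMonoid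

theorem card_factors_irreducible {F : Type*} [Field F] [DecidableEq F] {g : F[X]}
    (hg : Irreducible g) : (normalizedFactors g).card = 1 := by
  rw [normalizedFactors_irreducible hg, Multiset.card_singleton]

theorem discr_eq_one_of_map {R : Type*} [CommRing R] [Nontrivial R] {f : ℤ[X]} (hm : f.Monic)
    {n j : ℕ} (c : R) (hn : f.natDegree = n) (hj : j < n) (h0 : f.coeff 0 = 1)
    (hs : Even (n * (n - 1) / 2)) (he : Even (n * j))
    (hd : (f.map (Int.castRingHom R)).derivative = C c * X ^ j) :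
    (f.discr : R) = c ^ n := by
  have h := resultant_deriv (f := f) (natDegree_pos_iff_degree_pos.1 (by omega))
  rw [hn, hm.leadingCoeff, hs.neg_one_pow, one_mul, one_mul] at h
  have hdeg : (X ^ j : R[X]).natDegree ≤ j := natDegree_X_pow_le j
  rw [← h, ← eq_intCast (Int.castRingHom R) (f.resultant _ _ _), ← resultant_map_map,
    ← derivative_map, hd, resultant_C_mul_right, show n - 1 = j + (n - 1 - j) by omega,
    resultant_add_right_deg _ _ _ _ _ hdeg,
    resultant_X_pow_right _ _ _ (by rw [hm.natDegree_map, hn]), he.neg_one_pow, coeff_map,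
    coeff_map, h0, map_one, one_pow, ← hn, hm.coeff_natDegree, map_one, one_pow, one_mul, one_mul,
    mul_one]

/-- The trinomial. -/
theorem discr_trinomial_mod_eight {n k : ℕ} (hn : 8 ∣ n) (hk : k < n) (hodd : Odd k) :
    ((X ^ n + X ^ k + 1 : ℤ[X]).discr) % 8 = 1 := by
  obtain ⟨m, rfl⟩ := hn
  obtain ⟨l, rfl⟩ := hodd
  set f : ℤ[X] := X ^ (8 * m) + X ^ (2 * l + 1) + 1 with hf
  have hlow : (X ^ (2 * l + 1) + 1 : ℤ[X]).degree < ((8 * m : ℕ) : WithBot ℕ) := by
    refine (degree_add_le _ _).trans_lt (max_lt ?_ ?_)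
    · rw [degree_X_pow]; exact_mod_cast hk
    · rw [degree_one]; exact_mod_cast (by omega : 0 < 8 * m)
  have hm : f.Monic := by rw [hf, add_assoc]; exact monic_X_pow_add hlow
  have hdeg : f.natDegree = 8 * m := by
    refine natDegree_eq_of_degree_eq_some ?_
    rw [hf, add_assoc, degree_add_eq_left_of_degree_lt (by rwa [degree_X_pow]), degree_X_pow]
  have h8 : ((8 * m : ℕ) : ZMod 8) = 0 := by
    push_cast
    rw [show (8 : ZMod 8) = 0 from rfl, zero_mul]
  haveI : Nontrivial (ZMod 8) := ⟨0, 1, by decide⟩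
  have h := discr_eq_one_of_map (R := ZMod 8) hm (j := 2 * l) ((2 * l + 1 : ℕ) : ZMod 8) hdeg
    (by omega) (by simp [hf, coeff_X_pow]; omega) (by
      rw [show 8 * m * (8 * m - 1) / 2 = 4 * m * (8 * m - 1) by
        rw [show 8 * m * (8 * m - 1) = 2 * (4 * m * (8 * m - 1)) by ring,
          Nat.mul_div_cancel_left _ two_pos]]
      exact ⟨2 * m * (8 * m - 1), by ring⟩) ⟨4 * m * (2 * l), by ring⟩ (by
      simp [hf, derivative_add, derivative_X_pow, h8])
  have hsq : ((2 * l + 1 : ℕ) : ZMod 8) ^ 2 = 1 := by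
    obtain ⟨s, hs⟩ := Nat.even_mul_succ_self l
    rw [← Nat.cast_pow, show (2 * l + 1) ^ 2 = 8 * s + 1 by linear_combination (4 : ℕ) * hs]
    push_cast
    rw [show (8 : ZMod 8) = 0 from rfl, zero_mul, zero_add]
  rw [show 8 * m = 2 * (4 * m) by ring, pow_mul, hsq, one_pow, ← Int.cast_one,
    ZMod.intCast_eq_intCast_iff'] at h
  simpa using h

/-- The square case. -/
theorem trinomial_eq_sq {a c : ℕ} :
    (X ^ (2 * a) + X ^ (2 * c) + 1 : (ZMod 2)[X]) = (X ^ a + X ^ c + 1) ^ 2 := by
  haveI : CharP (ZMod 2)[X] 2 := inferInstance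
  rw [CharTwo.add_sq, CharTwo.add_sq, one_pow, ← pow_mul, ← pow_mul, mul_comm a, mul_comm c]

/-- **Swan**: for `8 ∣ n` the trinomial `X ^ n + X ^ k + 1` is reducible over `ℤ/2`. -/
theorem not_irreducible_trinomial {n k : ℕ} (hn : 8 ∣ n) (hk : k < n) :
    ¬ Irreducible (X ^ n + X ^ k + 1 : (ZMod 2)[X]) := by
  classical
  intro hirr
  obtain ⟨m, rfl⟩ := hn
  rcases Nat.even_or_odd k with ⟨c, rfl⟩ | hodd
  · rw [show 8 * m = 2 * (4 * m) by ring, show c + c = 2 * c by ring, trinomial_eq_sq] at hirr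
    exact not_irreducible_pow (by decide) hirr
  · set f : ℤ[X] := X ^ (8 * m) + X ^ k + 1 with hf
    have hmap : f.map (Int.castRingHom (ZMod 2)) = X ^ (8 * m) + X ^ k + 1 := by
      simp [hf, Polynomial.map_add]
    have hlow : (X ^ k + 1 : ℤ[X]).degree < ((8 * m : ℕ) : WithBot ℕ) := by
      refine (degree_add_le _ _).trans_lt (max_lt ?_ ?_)
      · rw [degree_X_pow]; exact_mod_cast hk
      · rw [degree_one]; exact_mod_cast (by omega : 0 < 8 * m)
    have hm : f.Monic := by rw [hf, add_assoc]; exact monic_X_pow_add hlow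
    have hdeg : f.natDegree = 8 * m := by
      refine natDegree_eq_of_degree_eq_some ?_
      rw [hf, add_assoc, degree_add_eq_left_of_degree_lt (by rwa [degree_X_pow]), degree_X_pow]
    have h8 := discr_trinomial_mod_eight (dvd_mul_right 8 m) hk hodd
    rw [← hf] at h8
    have h := (discr_mod_eight hm (by omega)).1 h8
    rw [hdeg, hmap, card_factors_irreducible hirr] at h
    exact Nat.not_even_iff_odd.2 ⟨4 * m, by ring⟩ h

/-- **A square discriminant in even degree**: reducible modulo every prime. -/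
theorem not_irreducible_of_isSquare (p : ℕ) [hp : Fact p.Prime] {f : ℤ[X]} (hm : f.Monic)
    (hn : Even f.natDegree) (hsq : IsSquare f.discr) :
    ¬ Irreducible (f.map (Int.castRingHom (ZMod p))) := by
  classical
  intro hirr
  have hd := (separable_map_iff p hm).1 (PerfectField.separable_of_irreducible hirr)
  have hodd : ¬ Even (f.natDegree + (normalizedFactors
      (f.map (Int.castRingHom (ZMod p)))).card) := by
    rw [card_factors_irreducible hirr, Nat.even_add_one, not_not]
    exact hn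
  obtain ⟨s, hs⟩ := hsq
  rcases eq_or_ne p 2 with rfl | hp2
  · refine hodd ((discr_mod_eight hm hd).1 ?_)
    obtain ⟨t, rfl⟩ : ∃ t, s = 2 * t + 1 := ⟨s / 2, by
      rcases Int.even_or_odd s with ⟨u, rfl⟩ | ⟨u, rfl⟩
      · exact absurd ⟨2 * u * u, by rw [hs]; push_cast; ring⟩ hd
      · omega⟩
    obtain ⟨v, hv⟩ := Int.even_mul_succ_self t
    have : f.discr = 8 * v + 1 := by rw [hs]; linear_combination (4 : ℤ) * hv
    omega
  · have hne : (s : ZMod p) ≠ 0 := fun h => hd (by
      rw [← ZMod.intCast_zmod_eq_zero_iff_dvd, hs, Int.cast_mul, h, mul_zero])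
    have h := legendreSym_discr hp2 hm hd
    rw [hs, ← sq, legendreSym.sq_one' p hne, (Nat.not_even_iff_odd.1 hodd).neg_one_pow] at h
    exact absurd h (by norm_num)

theorem discr_X_pow_four_add_one : ((X ^ 4 + 1 : ℤ[X]).discr) = 256 := by
  have hm : (X ^ 4 + 1 : ℤ[X]).Monic := monic_X_pow_add_C (1 : ℤ) four_ne_zero
  have hdeg : (X ^ 4 + 1 : ℤ[X]).natDegree = 4 := natDegree_X_pow_add_C
  have h := discr_eq_one_of_map (R := ℤ) hm (j := 3) (4 : ℤ) hdeg (by norm_num)
    (by simp [coeff_X_pow]) ⟨3, rfl⟩ ⟨6, rfl⟩ (by simp [derivative_add])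
  simpa using h

end FA.PolynomialParity

end
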